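/-
S55 / LOC / block LCA : ABSTRACT local class field theory in the coefficient-only formalism.
Definitions: the `Γ`-sets `ZSet d` (`ℤ/n` with `Γ` acting by translation through a character `d`),
the cyclic covers `Y × ZSet d → Y`, the axioms `LocAx`.
-/
import Fermat.Agent.S55.Coh.Cyclic
import Fermat.Agent.S55.Coh.H0
import Fermat.Agent.S55.Coh.ShapiroDef
import Fermat.Agent.S55.Coh.SetDefs

set_option autoImplicit false

namespace Fermat.Agent.S55.Loc

variable {Γ : Type} [Group Γ]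

/-- `ℤ/n` as a `Γ`-set: `g • z = d g + z`. -/
def ZSet {n : ℕ} (_d : Γ →* Multiplicative (ZMod n)) : Type := ZMod n

namespace ZSet

variable {n : ℕ} (d : Γ →* Multiplicative (ZMod n))

/-- The identity `ZMod n ≃ ZSet d`. -/
def of : ZMod n ≃ ZSet d := Equiv.refl _

instance [NeZero n] : Finite (ZSet d) := inferInstanceAs (Finite (ZMod n))

instance : Nonempty (ZSet d) := ⟨of d 0⟩

instance : MulAction Γ (ZSet d) where
  smul g z := of d (Multiplicative.toAdd (d g) + (of d).symm z)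
  one_smul z := by
    change of d (Multiplicative.toAdd (d 1) + (of d).symm z) = z
    rw [map_one, toAdd_one, zero_add, Equiv.apply_symm_apply]
  mul_smul g h z := by
    change of d (Multiplicative.toAdd (d (g * h)) + (of d).symm z) =
      of d (Multiplicative.toAdd (d g) + (Multiplicative.toAdd (d h) + (of d).symm z))
    rw [map_mul, toAdd_mul, add_assoc]

theorem smul_def (g : Γ) (z : ZSet d) :
    g • z = of d (Multiplicative.toAdd (d g) + (of d).symm z) := rfl

/-- The deck transformation `z ↦ z + 1`. -/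
def shift : ZSet d →[Γ] ZSet d where
  toFun z := of d ((of d).symm z + 1)
  map_smul' g z := by
    change of d ((Multiplicative.toAdd (d g) + (of d).symm z) + 1) =
      of d (Multiplicative.toAdd (d g) + ((of d).symm z + 1))
    rw [add_assoc]

theorem shift_apply (z : ZSet d) : shift d z = of d ((of d).symm z + 1) := rfl

end ZSet

/-- The projection `Y × ZSet d → Y`. -/
def zProj (Y : Type) [MulAction Γ Y] {n : ℕ} (d : Γ →* Multiplicative (ZMod n)) :
    Y × ZSet d →[Γ] Y := MulActionHom.fst Γ Y (ZSet d)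

/-- The deck transformation of `Y × ZSet d → Y`. -/
def zShift (Y : Type) [MulAction Γ Y] {n : ℕ} (d : Γ →* Multiplicative (ZMod n)) :
    Y × ZSet d →[Γ] Y × ZSet d :=
  (MulActionHom.id Γ).prodMap (ZSet.shift d)

/-- `w_Y = ord ∘ (sum over Y)` on `H^0(K_Y)`. -/
noncomputable def wY {𝓝 : LevelSys Γ} {K : Type} [AddCommGroup K] [DistribMulAction Γ K]
    (ord : inv0 Γ K →+ ℤ) (Y : Type) [MulAction Γ Y] [Finite Y] :
    Hsm 𝓝 (IndMod Y K) 0 →+ ℤ :=
  ord.comp ((Hsm.H0equiv (𝓝 := 𝓝) (A := K)).toAddMonoidHom.comp (Hsm.map (IndMod.sum Y K) 0))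

/-- THE AXIOMS of abstract local class field theory (for the `p`-primary part). -/
structure LocAx (Γ : Type) [Group Γ] (𝓝 : LevelSys Γ) (K : Type) [AddCommGroup K]
    [DistribMulAction Γ K] (p : ℕ) where
  /-- the unramified characters -/
  d : ∀ n : ℕ, Γ →* Multiplicative (ZMod n)
  d_open : ∀ n : ℕ, 0 < n → 𝓝.IsOpen (d n).ker
  d_compat : ∀ (n N : ℕ) (h : n ∣ N) (g : Γ),
    ZMod.castHom h (ZMod n) (Multiplicative.toAdd (d N g)) = Multiplicative.toAdd (d n g)
  /-- the valuation on the invariants -/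
  ord : inv0 Γ K →+ ℤ
  ord_one : ∃ a, ord a = 1
  /-- Hilbert 90 -/
  H90 : ∀ (Y : Type) [MulAction Γ Y] [Finite Y] [SmoothSet 𝓝 Y] (y : Hsm 𝓝 (IndMod Y K) 1), y = 0
  /-- norms from the unramified cover of degree `n`, `Y` transitive -/
  AXU : ∀ (Y : Type) [MulAction Γ Y] [Finite Y] [SmoothSet 𝓝 Y] [MulAction.IsPretransitive Γ Y]
    (n : ℕ) [NeZero n] (a : Hsm 𝓝 (IndMod Y K) 0),
    a ∈ Set.range (Hsm.map (𝓝 := 𝓝) (IndMod.push K (zProj Y (d n))) 0) ↔ (n : ℤ) ∣ wY ord Y a
  /-- the norm index of a cyclic step of degree `p` is at most `p` -/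
  AXP : ∀ (U V : Subgroup Γ) (h : V ≤ U), 𝓝.IsOpen V → (V.subgroupOf U).Normal →
    V.relIndex U = p → ∀ _ : Finite (Γ ⧸ V),
    (Hsm.map (𝓝 := 𝓝) (IndMod.push K (cosetMap h)) 0).range.index ≠ 0 ∧
    (Hsm.map (𝓝 := 𝓝) (IndMod.push K (cosetMap h)) 0).range.index ≤ p

end Fermat.Agent.S55.Loc
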