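/-
S55 / LOC / LUN-0 : the cyclic cover `Y × ZSet d → Y`.   (helper110)
-/
import Fermat.Agent.S55.Loc.Abs.Defs

set_option autoImplicit false

namespace Fermat.Agent.S55.Loc

open Fermat.Agent.S55

variable {Γ : Type} [Group Γ]

theorem zShift_apply (Y : Type) [MulAction Γ Y] {n : ℕ} (d : Γ →* Multiplicative (ZMod n))
    (x : Y × ZSet d) : zShift Y d x = (x.1, ZSet.of d ((ZSet.of d).symm x.2 + 1)) := rfl

theorem zShift_iterate (Y : Type) [MulAction Γ Y] {n : ℕ} (d : Γ →* Multiplicative (ZMod n))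
    (k : ℕ) (x : Y × ZSet d) :
    (zShift Y d)^[k] x = (x.1, ZSet.of d ((ZSet.of d).symm x.2 + (k : ZMod n))) := by
  induction k with
  | zero =>
    rw [Function.iterate_zero, id, Nat.cast_zero, add_zero, Equiv.apply_symm_apply]
  | succ k ih =>
    rw [Function.iterate_succ_apply', ih, zShift_apply, Equiv.symm_apply_apply, Nat.cast_succ,
      add_assoc]

/-- `Y × ZSet d → Y` is a cyclic cover of degree `n`. -/
theorem zCover (Y : Type) [MulAction Γ Y] {n : ℕ} [NeZero n] (d : Γ →* Multiplicative (ZMod n)) :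
    CyclicCover (zProj Y d) (zShift Y d) n where
  pos := Nat.pos_of_ne_zero (NeZero.ne n)
  surj y := ⟨(y, ZSet.of d 0), rfl⟩
  comm _ := rfl
  pow x := by
    rw [zShift_iterate, ZMod.natCast_self, add_zero, Equiv.apply_symm_apply]
  trans x y h := by
    refine ⟨((ZSet.of d).symm y.2 - (ZSet.of d).symm x.2).val, ZMod.val_lt _, ?_⟩
    rw [zShift_iterate, ZMod.natCast_zmod_val, add_sub_cancel, Equiv.apply_symm_apply]
    exact Prod.ext h rfl
  free x k hk hkn h := by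
    rw [zShift_iterate] at h
    have h1 := congrArg (fun t => (ZSet.of d).symm t.2) h
    simp only [Equiv.symm_apply_apply] at h1
    have h2 : (k : ZMod n) = 0 := by simpa using h1
    rw [ZMod.natCast_eq_zero_iff] at h2
    exact absurd (Nat.le_of_dvd hk h2) (not_le.mpr hkn)

theorem smoothSet_ZSet {𝓝 : LevelSys Γ} {n : ℕ} (d : Γ →* Multiplicative (ZMod n))
    (h : 𝓝.IsOpen d.ker) : SmoothSet 𝓝 (ZSet d) where
  exists_fix z := by
    obtain ⟨N, hN, hle⟩ := h
    refine ⟨N, hN, fun g hg => ?_⟩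
    have h1 : d g = 1 := hle hg
    rw [ZSet.smul_def, h1, toAdd_one, zero_add, Equiv.apply_symm_apply]

/-- if `d` hits `1` and `ker d ≤ M` there is an equivariant map `ZSet d → Γ ⧸ M` -/
theorem exists_ZSet_to_coset {n : ℕ} (d : Γ →* Multiplicative (ZMod n)) (φ : Γ)
    (hφ : d φ = Multiplicative.ofAdd 1) (M : Subgroup Γ) (hM : d.ker ≤ M) :
    Nonempty (ZSet d →[Γ] Γ ⧸ M) := by
  have hex : ∀ z : ZMod n, ∃ γ : Γ, d γ = Multiplicative.ofAdd z := by
    intro z
    obtain ⟨k, rfl⟩ := ZMod.intCast_surjective z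
    refine ⟨φ ^ k, ?_⟩
    rw [map_zpow, hφ, ← ofAdd_zsmul]
    simp
  choose γ hγ using hex
  refine ⟨{ toFun := fun z => ((γ ((ZSet.of d).symm z) : Γ) : Γ ⧸ M), map_smul' := ?_ }⟩
  intro g z
  show ((γ ((ZSet.of d).symm (g • z)) : Γ) : Γ ⧸ M) = ((g * γ ((ZSet.of d).symm z) : Γ) : Γ ⧸ M)
  rw [QuotientGroup.eq]
  apply hM
  rw [MonoidHom.mem_ker, map_mul, map_inv, map_mul, hγ, hγ, ZSet.smul_def,
    Equiv.symm_apply_apply, ofAdd_add, ofAdd_toAdd, inv_mul_cancel]

end Fermat.Agent.S55.Loc
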